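/-
P-S44 / block C2, leaf C2-KH (helper42): units of the Gauss ring inside `L((q))`.

`IsGaussUnit A π y` : `y` lies in the Gauss ring `gaussRing A π` (quotients of `A`-integral Laurent
series with denominator nonzero mod `π`) and has nonzero reduction; `gred A π y` is the total
reduction map (`0` outside the Gauss ring).  Closure under products, inverses, integer powers,
the substitutions `q ↦ q^d` and `q ↦ ζ q` (`ζ` a unit of `A`), constants, and the reduction of a
primitive `ℓ`-th root of unity when `ℓ ≠ 0` in the residue field.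
-/
import Mathlib
import Fermat.Agent.Gateway.Red.Defs
import Fermat.Agent.Gateway.GoodRed.GaussRing
import Fermat.Agent.Gateway.Kummer.Twist

set_option autoImplicit false

noncomputable section

namespace Fermat.Agent.S40x.C2.KH

open ModularCurve Fermat.Agent.Gateway Fermat.Agent.Gateway.Red Fermat.Agent.Gateway.GoodRed

variable {L : Type*} [Field L] (A : ValuationSubring L) {k : Type*} [Field k] (π : A →+* k)

/-- `y` is a unit of the Gauss ring: it lies in the Gauss ring and has nonzero reduction -/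
def IsGaussUnit (y : LaurentSeries L) : Prop :=
  ∃ hy : y ∈ gaussRing A π, gaussRed A π ⟨y, hy⟩ ≠ 0

open Classical in
/-- the total reduction map (`0` outside the Gauss ring) -/
def gred (y : LaurentSeries L) : LaurentSeries k :=
  if hy : y ∈ gaussRing A π then gaussRed A π ⟨y, hy⟩ else 0

variable {A π}

theorem gred_of_mem {y : LaurentSeries L} (hy : y ∈ gaussRing A π) :
    gred A π y = gaussRed A π ⟨y, hy⟩ := dif_pos hy

theorem IsGaussUnit.mem {y : LaurentSeries L} (h : IsGaussUnit A π y) : y ∈ gaussRing A π := h.1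

theorem IsGaussUnit.gred_ne_zero {y : LaurentSeries L} (h : IsGaussUnit A π y) :
    gred A π y ≠ 0 := by
  rw [gred_of_mem h.1]
  exact h.2

theorem isGaussUnit_iff {y : LaurentSeries L} :
    IsGaussUnit A π y ↔ y ∈ gaussRing A π ∧ gred A π y ≠ 0 := by
  constructor
  · intro h
    exact ⟨h.1, h.gred_ne_zero⟩
  · rintro ⟨h1, h2⟩
    rw [gred_of_mem h1] at h2
    exact ⟨h1, h2⟩

theorem IsGaussUnit.ne_zero {y : LaurentSeries L} (h : IsGaussUnit A π y) : y ≠ 0 := by
  rintro rfl
  obtain ⟨h1, h2⟩ := h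
  apply h2
  have : (⟨0, h1⟩ : gaussRing A π) = 0 := rfl
  rw [this, map_zero]

theorem gred_one : gred A π (1 : LaurentSeries L) = 1 := by
  rw [gred_of_mem (gaussRing A π).one_mem]
  have : (⟨1, (gaussRing A π).one_mem⟩ : gaussRing A π) = 1 := rfl
  rw [this, map_one]

theorem isGaussUnit_one : IsGaussUnit A π (1 : LaurentSeries L) :=
  isGaussUnit_iff.mpr ⟨(gaussRing A π).one_mem, by rw [gred_one]; exact one_ne_zero⟩

theorem gred_mul {x y : LaurentSeries L} (hx : x ∈ gaussRing A π) (hy : y ∈ gaussRing A π) :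
    gred A π (x * y) = gred A π x * gred A π y := by
  rw [gred_of_mem hx, gred_of_mem hy, gred_of_mem ((gaussRing A π).mul_mem hx hy), ← map_mul]
  rfl

theorem IsGaussUnit.mul {x y : LaurentSeries L} (hx : IsGaussUnit A π x)
    (hy : IsGaussUnit A π y) : IsGaussUnit A π (x * y) :=
  isGaussUnit_iff.mpr ⟨(gaussRing A π).mul_mem hx.1 hy.1, by
    rw [gred_mul hx.1 hy.1]
    exact mul_ne_zero hx.gred_ne_zero hy.gred_ne_zero⟩

theorem IsGaussUnit.inv_mem {y : LaurentSeries L} (h : IsGaussUnit A π y) :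
    y⁻¹ ∈ gaussRing A π := inv_mem_gaussRing A π h.1 h.2

theorem gred_inv {y : LaurentSeries L} (h : IsGaussUnit A π y) :
    gred A π y⁻¹ = (gred A π y)⁻¹ := by
  rw [gred_of_mem h.inv_mem, gred_of_mem h.1]
  exact gaussRed_inv A π h.1 h.inv_mem h.ne_zero

theorem IsGaussUnit.inv {y : LaurentSeries L} (h : IsGaussUnit A π y) :
    IsGaussUnit A π y⁻¹ :=
  isGaussUnit_iff.mpr ⟨h.inv_mem, by
    rw [gred_inv h]
    exact inv_ne_zero h.gred_ne_zero⟩

theorem IsGaussUnit.pow {y : LaurentSeries L} (h : IsGaussUnit A π y) (n : ℕ) :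
    IsGaussUnit A π (y ^ n) := by
  induction n with
  | zero => rw [pow_zero]; exact isGaussUnit_one
  | succ n ih => rw [pow_succ]; exact ih.mul h

theorem gred_pow {y : LaurentSeries L} (h : IsGaussUnit A π y) (n : ℕ) :
    gred A π (y ^ n) = gred A π y ^ n := by
  induction n with
  | zero => rw [pow_zero, pow_zero, gred_one]
  | succ n ih => rw [pow_succ, pow_succ, gred_mul (h.pow n).1 h.1, ih]

theorem IsGaussUnit.zpow {y : LaurentSeries L} (h : IsGaussUnit A π y) (a : ℤ) :
    IsGaussUnit A π (y ^ a) := by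
  cases a with
  | ofNat n => rw [Int.ofNat_eq_natCast, zpow_natCast]; exact h.pow n
  | negSucc n => rw [zpow_negSucc]; exact (h.pow (n + 1)).inv

theorem gred_zpow {y : LaurentSeries L} (h : IsGaussUnit A π y) (a : ℤ) :
    gred A π (y ^ a) = gred A π y ^ a := by
  cases a with
  | ofNat n => rw [Int.ofNat_eq_natCast, zpow_natCast, zpow_natCast, gred_pow h]
  | negSucc n => rw [zpow_negSucc, zpow_negSucc, gred_inv (h.pow (n + 1)), gred_pow h]

theorem IsGaussUnit.prod {ι : Type*} (s : Finset ι) (f : ι → LaurentSeries L)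
    (h : ∀ i ∈ s, IsGaussUnit A π (f i)) : IsGaussUnit A π (∏ i ∈ s, f i) := by
  classical
  induction s using Finset.induction_on with
  | empty => rw [Finset.prod_empty]; exact isGaussUnit_one
  | insert a s ha ih =>
    rw [Finset.prod_insert ha]
    exact (h a (Finset.mem_insert_self a s)).mul (ih fun i hi => h i (Finset.mem_insert_of_mem hi))

theorem gred_prod {ι : Type*} (s : Finset ι) (f : ι → LaurentSeries L)
    (h : ∀ i ∈ s, IsGaussUnit A π (f i)) :
    gred A π (∏ i ∈ s, f i) = ∏ i ∈ s, gred A π (f i) := by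
  classical
  induction s using Finset.induction_on with
  | empty => rw [Finset.prod_empty, Finset.prod_empty, gred_one]
  | insert a s ha ih =>
    rw [Finset.prod_insert ha, Finset.prod_insert ha,
      gred_mul (h a (Finset.mem_insert_self a s)).1
        (IsGaussUnit.prod s f fun i hi => h i (Finset.mem_insert_of_mem hi)).1,
      ih fun i hi => h i (Finset.mem_insert_of_mem hi)]

/-! ### Substitutions -/

theorem gred_qExpand (d : ℕ) [NeZero d] {y : LaurentSeries L} (hy : y ∈ gaussRing A π) :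
    gred A π (qExpand L d y) = qExpand k d (gred A π y) := by
  rw [gred_of_mem (GaussRing.qExpand_mem_gaussRing A π d hy), gred_of_mem hy]
  exact GaussRing.gaussRed_qExpand A π d hy

theorem IsGaussUnit.qExpand (d : ℕ) [NeZero d] {y : LaurentSeries L} (h : IsGaussUnit A π y) :
    IsGaussUnit A π (qExpand L d y) :=
  isGaussUnit_iff.mpr ⟨GaussRing.qExpand_mem_gaussRing A π d h.1, by
    rw [gred_qExpand d h.1]
    intro h0
    exact h.gred_ne_zero (qExpand_injective d (by rw [h0, map_zero]))⟩

/-- the two copies of the substitution `t ↦ ζ t` agree -/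
theorem kummerTwist_eq_twist {R : Type*} [CommRing R] (ζ : Rˣ) :
    Kummer.twist ζ = Fermat.Agent.S28.twist ζ := by
  ext y n
  rfl

theorem twist_mem (ζ : Aˣ) {y : LaurentSeries L} (hy : y ∈ gaussRing A π) :
    Kummer.twist (Units.map (A.subtype : A →* L) ζ) y ∈ gaussRing A π := by
  rw [kummerTwist_eq_twist]
  exact GaussRing.twist_mem_gaussRing A π ζ hy

theorem gred_twist (ζ : Aˣ) {y : LaurentSeries L} (hy : y ∈ gaussRing A π) :
    gred A π (Kummer.twist (Units.map (A.subtype : A →* L) ζ) y) =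
      Kummer.twist (Units.map (π : A →* k) ζ) (gred A π y) := by
  rw [kummerTwist_eq_twist, kummerTwist_eq_twist,
    gred_of_mem (GaussRing.twist_mem_gaussRing A π ζ hy), gred_of_mem hy]
  exact GaussRing.gaussRed_twist A π ζ hy

theorem IsGaussUnit.twist (ζ : Aˣ) {y : LaurentSeries L} (h : IsGaussUnit A π y) :
    IsGaussUnit A π (Kummer.twist (Units.map (A.subtype : A →* L) ζ) y) :=
  isGaussUnit_iff.mpr ⟨twist_mem ζ h.1, by
    rw [gred_twist ζ h.1]
    intro h0
    have hinj : Function.Injective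
        (Kummer.twist (Units.map (π : A →* k) ζ) : LaurentSeries k →+* LaurentSeries k) :=
      RingHom.injective _
    exact h.gred_ne_zero (hinj (by rw [h0, map_zero]))⟩

/-! ### Constants -/

theorem gred_C (a : A) : gred A π (HahnSeries.C (a : L)) = HahnSeries.C (π a) := by
  rw [gred_of_mem (GaussRing.C_mem_gaussRing_of_mem A π a.2)]
  exact GaussRing.gaussRed_C A π a

/-- a constant Gauss unit is a unit of `A` -/
theorem IsGaussUnit.exists_C (hπ : Function.Surjective π) {c : L}
    (h : IsGaussUnit A π (HahnSeries.C c)) : ∃ a : A, (a : L) = c ∧ π a ≠ 0 := by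
  have hc : c ∈ A := (GaussRing.C_mem_gaussRing_iff A π hπ c).mp h.1
  refine ⟨⟨c, hc⟩, rfl, ?_⟩
  have h1 := h.gred_ne_zero
  rw [show HahnSeries.C c = HahnSeries.C (((⟨c, hc⟩ : A) : L)) from rfl, gred_C] at h1
  intro h0
  exact h1 (by rw [h0, map_zero])

/-! ### Roots of unity -/

/-- a root of unity of `L` is a unit of `A` -/
theorem exists_unit_of_pow_eq_one {n : ℕ} (hn : n ≠ 0) (ζ : Lˣ) (hζ : ζ ^ n = 1) :
    ∃ ζA : Aˣ, Units.map (A.subtype : A →* L) ζA = ζ := by
  have hmem : ∀ ξ : Lˣ, ξ ^ n = 1 → (ξ : L) ∈ A := by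
    intro ξ hξ
    rcases A.mem_or_inv_mem (ξ : L) with h | h
    · exact h
    · have h1 : (ξ : L) = ((ξ : L)⁻¹) ^ (n - 1) := by
        have h2 : (ξ : L) ^ n = 1 := by rw [← Units.val_pow_eq_pow_val, hξ, Units.val_one]
        have h3 : (ξ : L) ^ (n - 1) * ξ = 1 := by
          rw [← pow_succ, Nat.sub_add_cancel (Nat.one_le_iff_ne_zero.mpr hn), h2]
        rw [inv_pow]
        exact eq_inv_of_mul_eq_one_right h3
      rw [h1]
      exact pow_mem h _
  have hinv : (ζ⁻¹) ^ n = 1 := by rw [inv_pow, hζ, inv_one]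
  refine ⟨{ val := ⟨ζ, hmem ζ hζ⟩
            inv := ⟨((ζ⁻¹ : Lˣ) : L), hmem ζ⁻¹ hinv⟩
            val_inv := by ext; simp
            inv_val := by ext; simp }, Units.ext rfl⟩

/-- the reduction of a primitive `ℓ`-th root of unity (`ℓ` prime, `ℓ ≠ 0` in `k`) is again a
primitive `ℓ`-th root of unity -/
theorem isPrimitiveRoot_map_pi {ℓ : ℕ} (hℓ : ℓ.Prime) (hℓk : (ℓ : k) ≠ 0) {ζA : Aˣ}
    (hζ : IsPrimitiveRoot (Units.map (A.subtype : A →* L) ζA) ℓ) :
    IsPrimitiveRoot (Units.map (π : A →* k) ζA) ℓ := by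
  have hfact : Fact ℓ.Prime := ⟨hℓ⟩
  have hpowA : ζA ^ ℓ = 1 := by
    have h1 := hζ.pow_eq_one
    rw [← map_pow] at h1
    have hinj : Function.Injective (Units.map (A.subtype : A →* L)) :=
      Units.map_injective (f := (A.subtype : A →* L)) Subtype.val_injective
    exact hinj (by rw [h1, map_one])
  have hpow : (Units.map (π : A →* k) ζA) ^ ℓ = 1 := by
    rw [← map_pow, hpowA, map_one]
  have hne : Units.map (π : A →* k) ζA ≠ 1 := by
    intro h1
    -- `∑_{b<ℓ} ζ^b = 0` in `A`
    have hζL : ((ζA : A) : L) ≠ 1 := by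
      intro h
      have : Units.map (A.subtype : A →* L) ζA = 1 := Units.ext h
      exact hζ.ne_one hℓ.one_lt this
    have hsum : ∑ b ∈ Finset.range ℓ, ((ζA : A)) ^ b = 0 := by
      have h2 := mul_neg_geom_sum ((ζA : A)) ℓ
      have h3 : ((ζA : A)) ^ ℓ = 1 := by
        rw [← Units.val_pow_eq_pow_val, hpowA, Units.val_one]
      rw [h3, sub_self] at h2
      rcases mul_eq_zero.mp h2 with h4 | h4
      · exfalso
        apply hζL
        have := congrArg (fun z : A => (z : L)) (sub_eq_zero.mp h4)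
        simpa using this.symm
      · exact h4
    have h4 := congrArg π hsum
    rw [map_sum, map_zero] at h4
    have h5 : π (ζA : A) = 1 := by
      have := congrArg (fun u : kˣ => (u : k)) h1
      simpa using this
    simp only [map_pow, h5, one_pow, Finset.sum_const, Finset.card_range, nsmul_eq_mul,
      mul_one] at h4
    exact hℓk h4
  have hord : orderOf (Units.map (π : A →* k) ζA) = ℓ := orderOf_eq_prime hpow hne
  rw [← hord]
  exact IsPrimitiveRoot.orderOf _

end Fermat.Agent.S40x.C2.KH
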