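/-
P-S44 / block C2, leaf C2-KH (helper42): the abstract Laurent-series core.

If `F`, `H` are units of the Gauss ring of `L((q))`, `G = c * F^a * H^p` (`c` a constant, `a : ℤ`,
`p` the residue characteristic) and `G(q^ℓ) = F(q^{ℓ²}) ∏_{b<ℓ} F(ζ^b q)` with `ζ` a primitive
`ℓ`-th root of unity, `ℓ` a prime different from the residue characteristic, then the logarithmic
derivative of the reduction `F̄` is an eigenvector of the formal weight-2 Hecke operator:
`T_ℓ (dlog F̄) = a * dlog F̄`.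
-/
import Fermat.Agent.S40x.C2.KH.GaussUnit
import Fermat.Agent.S40x.C2.DlogHecke

set_option autoImplicit false

noncomputable section

namespace Fermat.Agent.S40x.C2.KH

open ModularCurve Fermat.Agent.Gateway Fermat.Agent.Gateway.Red Fermat.Agent.S40x.C2.DlogHecke

section Dlog

variable {k : Type*} [Field k]

theorem dlog_inv {f : LaurentSeries k} (hf : f ≠ 0) : dlog f⁻¹ = -dlog f := by
  have h := dlog_mul hf (inv_ne_zero hf)
  rw [mul_inv_cancel₀ hf, dlog_one] at h
  exact eq_neg_of_add_eq_zero_right h.symm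

theorem dlog_pow {f : LaurentSeries k} (hf : f ≠ 0) (n : ℕ) :
    dlog (f ^ n) = (n : LaurentSeries k) * dlog f := by
  induction n with
  | zero => rw [pow_zero, dlog_one, Nat.cast_zero, zero_mul]
  | succ n ih =>
    rw [pow_succ, dlog_mul (pow_ne_zero n hf) hf, ih, Nat.cast_succ]
    ring

theorem dlog_zpow {f : LaurentSeries k} (hf : f ≠ 0) (a : ℤ) :
    dlog (f ^ a) = (a : LaurentSeries k) * dlog f := by
  cases a with
  | ofNat n => rw [Int.ofNat_eq_natCast, zpow_natCast, dlog_pow hf, Int.cast_natCast]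
  | negSucc n =>
    rw [zpow_negSucc, dlog_inv (pow_ne_zero _ hf), dlog_pow hf, Int.cast_negSucc]
    ring

end Dlog

section Core

variable {L : Type*} [Field L] {A : ValuationSubring L} {k : Type*} [Field k] {π : A →+* k}

/-- **Abstract Kummer–Hecke reduction.** -/
theorem heckeT_dlog_gred (hπ : Function.Surjective π) (p : ℕ) [CharP k p] {ℓ : ℕ} [NeZero ℓ]
    (hℓ : ℓ.Prime) (hℓk : (ℓ : k) ≠ 0) {ζ : Lˣ} (hζ : IsPrimitiveRoot ζ ℓ)
    {F G H : LaurentSeries L} {c : L} {a : ℤ}
    (hF : IsGaussUnit A π F) (hH : IsGaussUnit A π H)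
    (hG : G = HahnSeries.C c * F ^ a * H ^ p)
    (hN : qExpand L ℓ G =
      qExpand L (ℓ * ℓ) F * ∏ b ∈ Finset.range ℓ, Kummer.twist (ζ ^ b) F) :
    heckeT ℓ (dlog (gred A π F)) = (a : LaurentSeries k) * dlog (gred A π F) := by
  obtain ⟨ζA, rfl⟩ := exists_unit_of_pow_eq_one (A := A) (NeZero.ne ℓ) ζ hζ.pow_eq_one
  have hζk : IsPrimitiveRoot (Units.map (π : A →* k) ζA) ℓ := isPrimitiveRoot_map_pi hℓ hℓk hζ
  -- the right-hand side of the norm formula is a Gauss unit
  have htw : ∀ b ∈ Finset.range ℓ,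
      IsGaussUnit A π (Kummer.twist (Units.map (A.subtype : A →* L) ζA ^ b) F) := by
    intro b _
    rw [← map_pow]
    exact hF.twist (ζA ^ b)
  have hP := IsGaussUnit.prod (Finset.range ℓ)
    (fun b => Kummer.twist (Units.map (A.subtype : A →* L) ζA ^ b) F) htw
  have hR : IsGaussUnit A π (qExpand L (ℓ * ℓ) F *
      ∏ b ∈ Finset.range ℓ, Kummer.twist (Units.map (A.subtype : A →* L) ζA ^ b) F) :=
    (hF.qExpand (ℓ * ℓ)).mul hP
  have hRred : gred A π (qExpand L (ℓ * ℓ) F *
      ∏ b ∈ Finset.range ℓ, Kummer.twist (Units.map (A.subtype : A →* L) ζA ^ b) F) =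
      qExpand k (ℓ * ℓ) (gred A π F) *
        ∏ b ∈ Finset.range ℓ, Kummer.twist (Units.map (π : A →* k) ζA ^ b) (gred A π F) := by
    rw [gred_mul (hF.qExpand (ℓ * ℓ)).1 hP.1, gred_qExpand (ℓ * ℓ) hF.1,
      gred_prod (Finset.range ℓ) _ htw]
    congr 1
    refine Finset.prod_congr rfl fun b _ => ?_
    rw [← map_pow, gred_twist (ζA ^ b) hF.1, map_pow]
  -- the constant is a Gauss unit
  have hqG : qExpand L ℓ G =
      HahnSeries.C c * (qExpand L ℓ F) ^ a * (qExpand L ℓ H) ^ p := by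
    rw [hG, map_mul, map_mul, qExpand_C, map_zpow₀, map_pow]
  have hFa := (hF.qExpand ℓ).zpow a
  have hHp := (hH.qExpand ℓ).pow p
  have hC : IsGaussUnit A π (HahnSeries.C c : LaurentSeries L) := by
    have h1 : (HahnSeries.C c : LaurentSeries L) =
        (qExpand L (ℓ * ℓ) F *
          ∏ b ∈ Finset.range ℓ, Kummer.twist (Units.map (A.subtype : A →* L) ζA ^ b) F) *
          ((qExpand L ℓ F) ^ a)⁻¹ * ((qExpand L ℓ H) ^ p)⁻¹ := by
      rw [← hN, hqG]
      have h2 := hFa.ne_zero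
      have h3 := hHp.ne_zero
      field_simp
    rw [h1]
    exact (hR.mul hFa.inv).mul hHp.inv
  obtain ⟨cA, rfl, hcA⟩ := hC.exists_C hπ
  -- `G` is a Gauss unit and its reduction
  have hGU : IsGaussUnit A π G := by
    rw [hG]
    exact (hC.mul (hF.zpow a)).mul (hH.pow p)
  have hGred : gred A π G =
      HahnSeries.C (π cA) * gred A π F ^ a * gred A π H ^ p := by
    rw [hG, gred_mul (hC.mul (hF.zpow a)).1 (hH.pow p).1, gred_mul hC.1 (hF.zpow a).1, gred_C,
      gred_zpow hF, gred_pow hH]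
  -- the reduced norm formula
  have hform : qExpand k ℓ (gred A π G) = qExpand k ℓ (qExpand k ℓ (gred A π F)) *
      ∏ b ∈ Finset.range ℓ, Kummer.twist (Units.map (π : A →* k) ζA ^ b) (gred A π F) := by
    rw [← gred_qExpand ℓ hGU.1, hN, hRred, qExpand_qExpand]
  have h1 := dlog_of_norm_formula hℓk hζk hF.gred_ne_zero hform
  rw [← h1, hGred]
  have hFb := hF.gred_ne_zero
  have hFba : gred A π F ^ a ≠ 0 := zpow_ne_zero a hFb
  have hCne : (HahnSeries.C (π cA) : LaurentSeries k) * gred A π F ^ a ≠ 0 := by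
    refine mul_ne_zero ?_ hFba
    intro h0
    exact hcA (HahnSeries.C_injective (by rw [h0, map_zero]))
  rw [dlog_mul_pow_char p hCne hH.gred_ne_zero, dlog_C_mul _ hcA hFba, dlog_zpow hFb]

end Core

end Fermat.Agent.S40x.C2.KH
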