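/-
P-S44 / block C2, leaf C2-KH (helper42): the algebraic Kummer–Hecke step.

If `T_ℓ x = a • x` in `Pic⁰` of the function field of `X₀(N)` over an algebraically closed field
`L` of characteristic zero and `f` is a Kummer representative of `x` at exponent `m`
(`div f = m D`, `[D] = x`), then the multiplicative Hecke operator on functions
`heckeFun f = Norm_α (β f)` satisfies `heckeFun f = c * f^a * h^m` with `c` a nonzero constant and
`h` a nonzero function.
-/
import Fermat.Agent.Gateway.Kummer.HeckeRed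
import Fermat.Agent.Gateway.Hecke.Inputs
import Fermat.Agent.Gateway.BaseChange.Modular

set_option autoImplicit false

noncomputable section

namespace Fermat.Agent.S40x.C2.KH

open ModularCurve AlgebraicCurve Fermat.Agent.Gateway Fermat.Agent.Gateway.Kummer
open Fermat.Agent.Gateway.Hecke

section General

variable {K F : Type*} [Field K] [Field F] [Algebra K F]

/-- integer powers of Kummer representatives -/
theorem isKummerRep_zpow {m : ℕ} {x : Pic0 K F} {u : F} (hx : IsKummerRep m x u) (a : ℤ) :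
    IsKummerRep m (a • x) (u ^ a) := by
  cases a with
  | ofNat n =>
    rw [Int.ofNat_eq_natCast, zpow_natCast, natCast_zsmul]
    exact hx.pow n
  | negSucc n =>
    rw [zpow_negSucc, negSucc_zsmul]
    exact (hx.pow (n + 1)).inv

/-- a Kummer representative of the trivial class is a constant times an `m`-th power, provided
functions without zeros and poles are constant -/
theorem exists_eq_const_mul_pow_of_isKummerRep_zero
    (hconst : ∀ g : F, g ≠ 0 → (∀ v : Place K F, v.ord g = 0) → ∃ c : K, g = algebraMap K F c)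
    {m : ℕ} {w : F} (hw : IsKummerRep m (0 : Pic0 K F) w) :
    ∃ (c : K) (h : F), c ≠ 0 ∧ h ≠ 0 ∧ w = algebraMap K F c * h ^ m := by
  obtain ⟨hw0, D, hD0, hD⟩ := hw
  obtain ⟨h, hh, hDh⟩ := (mk_eq_zero_iff D).mp hD0
  have hhm : h ^ m ≠ 0 := pow_ne_zero m hh
  have hq : w / h ^ m ≠ 0 := div_ne_zero hw0 hhm
  have hord : ∀ v : Place K F, v.ord (w / h ^ m) = 0 := by
    intro v
    rw [div_eq_mul_inv, v.ord_mul hw0 (inv_ne_zero hhm), v.ord_inv, ← zpow_natCast, v.ord_zpow,
      ← hD v, hDh v]
    ring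
  obtain ⟨c, hc⟩ := hconst _ hq hord
  refine ⟨c, h, ?_, hh, ?_⟩
  · rintro rfl
    rw [map_zero] at hc
    exact hq hc
  · rw [← hc, div_mul_cancel₀ _ hhm]

end General

section Modular

variable (L : Type) [Field L] [Algebra ℚ L] [IsAlgClosed L]
variable (N ℓ : ℕ) [NeZero N] [NeZero ℓ]

/-- **The Kummer–Hecke relation.**  `T_ℓ x = a • x` and `div f = m D`, `[D] = x` give
`Norm_α (β f) = c * f^a * h^m`. -/
theorem exists_heckeFun_eq {m : ℕ} {x : Pic0 L (FL L N)} {a : ℤ}
    (hx : heckeOperatorAlong L N ℓ x = a • x) {f : FL L N} (hf : IsKummerRep m x f) :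
    ∃ (c : L) (h : FL L N), c ≠ 0 ∧ h ≠ 0 ∧
      heckeFun L N ℓ f = algebraMap L (FL L N) c * f ^ a * h ^ m := by
  haveI : CharZero L := charZero_of_ratAlgebra L
  have h1 : IsKummerRep m (a • x) (heckeFun L N ℓ f) := by
    rw [← hx]
    exact isKummerRep_heckeOperatorAlong L N ℓ (heckeInputsAlong L N ℓ) hf
  have h2 : IsKummerRep m (a • x) (f ^ a) := isKummerRep_zpow hf a
  have h3 : IsKummerRep m (0 : Pic0 L (FL L N)) (heckeFun L N ℓ f / f ^ a) := by
    have := h1.div h2
    rwa [sub_self] at this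
  obtain ⟨c, h, hc, hh, hw⟩ := exists_eq_const_mul_pow_of_isKummerRep_zero
    (fun g hg hord =>
      Fermat.Agent.Gateway.BaseChange.Modular.const_of_ord_eq_zero_FL L N g hg hord) h3
  refine ⟨c, h, hc, hh, ?_⟩
  have hfa : f ^ a ≠ 0 := zpow_ne_zero a hf.ne_zero
  rw [div_eq_iff hfa] at hw
  rw [hw]
  ring

end Modular

end Fermat.Agent.S40x.C2.KH
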