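/-
P-S44 / block C2, leaf C2-KH (helper42): **Kummer–Hecke**.

`L` algebraically closed of characteristic zero, `A` a valuation subring of `L`, `π : A → k` onto a
field of characteristic `p`; `N` any level, `ℓ` a prime with `ℓ ≠ 0` in `k` for which the
`q`-expansion norm formula (C1) holds at level `N` (over `ℚ̄`: every prime `ℓ ∤ N`).
If `x ∈ Pic⁰(F_N)` satisfies `T_ℓ x = a • x` and `f` is a Kummer function of `x` at exponent `p`
(`div f = p D`, `[D] = x`) which is a unit for the Gauss valuation, with reduction `f̄ ∈ k((q))`,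
then

  `T_ℓ (dlog f̄) = a * dlog f̄`     in `k((q))`,

`T_ℓ = DlogHecke.heckeT ℓ` the formal weight-2 Hecke operator `a_n ↦ a_{ℓ n} + ℓ a_{n/ℓ}` and
`dlog f̄ = q f̄' / f̄`.

* `heckeT_dlog_of_eigen` : the general statement (`gred` vocabulary);
* `heckeT_dlog_of_eigen_Qb` : over `ℚ̄`, (C1) discharged by the landed
  `ESC.normQExpFormula_algebraicClosure`;
* `heckeT_dlog_resInfty`, `heckeT_dlog_resInfty_Qb` : at the level `M q` (`q = p` the residue
  characteristic) in the vocabulary `valInfty`, `resInfty` of `S34x/Inst/RedSetupInst`.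
-/
import Fermat.Agent.S40x.C2.KH.Core
import Fermat.Agent.S40x.C2.KH.KummerHecke
import Fermat.Agent.Gateway.ESC.NormQExp
import Fermat.Agent.S34x.Inst.RedSetupInst
import Fermat.Agent.S34x.TwoVal.FundInst

set_option autoImplicit false
set_option linter.style.haveILetI false
set_option linter.unusedSectionVars false

noncomputable section

namespace Fermat.Agent.S40x.C2.KH

open ModularCurve AlgebraicCurve Fermat.Agent.Gateway Fermat.Agent.Gateway.Kummer
open Fermat.Agent.Gateway.Hecke Fermat.Agent.Gateway.Red Fermat.Agent.Gateway.GoodRed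
open Fermat.Agent.S40x.C2.DlogHecke

local notation "Qb" => AlgebraicClosure ℚ

section General

variable {L : Type} [Field L] [Algebra ℚ L] [IsAlgClosed L] (A : ValuationSubring L)
  {k : Type*} [Field k] (π : A →+* k)

omit [IsAlgClosed L] in
/-- the `q`-expansion of a constant -/
theorem coe_algebraMap_FL (N : ℕ) [NeZero N] (c : L) :
    ((algebraMap L (FL L N) c : FL L N) : LaurentSeries L) = HahnSeries.C c := by
  rw [← GaussRing.algebraMap_eq_C L c]
  rfl

omit [IsAlgClosed L] in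
theorem coe_zpow_FL (N : ℕ) [NeZero N] (f : FL L N) (a : ℤ) :
    ((f ^ a : FL L N) : LaurentSeries L) = (f : LaurentSeries L) ^ a :=
  map_zpow₀ (algebraMap (FL L N) (LaurentSeries L)) f a

/-- **Kummer–Hecke, general form.** -/
theorem heckeT_dlog_of_eigen (hπ : Function.Surjective π) (p : ℕ) [CharP k p]
    (N ℓ : ℕ) [NeZero N] [NeZero ℓ] (hℓ : ℓ.Prime) (hℓk : (ℓ : k) ≠ 0)
    (hC1 : ∃ ζ : Lˣ, IsPrimitiveRoot ζ ℓ ∧ NormQExpFormula L N ℓ ζ)
    (hscal : ∀ h : FL L N, h ≠ 0 →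
      ∃ d : L, d ≠ 0 ∧ IsGaussUnit A π (HahnSeries.C d * (h : LaurentSeries L)))
    {x : Pic0 L (FL L N)} {a : ℤ} (hx : heckeOperatorAlong L N ℓ x = a • x)
    {f : FL L N} (hf : IsKummerRep p x f) (hfU : IsGaussUnit A π (f : LaurentSeries L)) :
    heckeT ℓ (dlog (gred A π (f : LaurentSeries L))) =
      (a : LaurentSeries k) * dlog (gred A π (f : LaurentSeries L)) := by
  obtain ⟨ζ, hζ, hform⟩ := hC1
  obtain ⟨c, h, hc, hh, hfun⟩ := exists_heckeFun_eq L N ℓ hx hf
  obtain ⟨d, hd, hdU⟩ := hscal h hh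
  have hG : ((heckeFun L N ℓ f : FL L N) : LaurentSeries L) =
      HahnSeries.C (c * (d ^ p)⁻¹) * (f : LaurentSeries L) ^ a *
        (HahnSeries.C d * (h : LaurentSeries L)) ^ p := by
    rw [hfun]
    have h1 : ((algebraMap L (FL L N) c * f ^ a * h ^ p : FL L N) : LaurentSeries L) =
        HahnSeries.C c * (f : LaurentSeries L) ^ a * (h : LaurentSeries L) ^ p := by
      rw [MulMemClass.coe_mul, MulMemClass.coe_mul, coe_algebraMap_FL, coe_zpow_FL]
      rfl
    rw [h1, mul_pow, map_mul, ← map_pow, map_inv₀]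
    have hdp : (HahnSeries.C (d ^ p) : LaurentSeries L) ≠ 0 := fun h0 =>
      pow_ne_zero p hd (HahnSeries.C_injective (by rw [h0, map_zero]))
    field_simp
  have hN := hform f
  exact heckeT_dlog_gred hπ p hℓ hℓk hζ hfU hdU hG hN

end General

section OverQb

variable (A : ValuationSubring Qb) {k : Type*} [Field k] (π : A →+* k)

/-- **Kummer–Hecke over `ℚ̄`**: any level `N`, any prime `ℓ ∤ N` with `ℓ ≠ 0` in `k`. -/
theorem heckeT_dlog_of_eigen_Qb (hπ : Function.Surjective π) (p : ℕ) [CharP k p]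
    (N ℓ : ℕ) [NeZero N] [NeZero ℓ] (hℓ : ℓ.Prime) (hℓN : ¬ ℓ ∣ N) (hℓk : (ℓ : k) ≠ 0)
    (hscal : ∀ h : FL Qb N, h ≠ 0 →
      ∃ d : Qb, d ≠ 0 ∧ IsGaussUnit A π (HahnSeries.C d * (h : LaurentSeries Qb)))
    {x : Pic0 Qb (FL Qb N)} {a : ℤ} (hx : heckeOperatorAlong Qb N ℓ x = a • x)
    {f : FL Qb N} (hf : IsKummerRep p x f) (hfU : IsGaussUnit A π (f : LaurentSeries Qb)) :
    heckeT ℓ (dlog (gred A π (f : LaurentSeries Qb))) =
      (a : LaurentSeries k) * dlog (gred A π (f : LaurentSeries Qb)) := by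
  obtain ⟨ζ, hζ⟩ := Fermat.Agent.Gateway.ESC.exists_prim_unit Qb ℓ (NeZero.ne ℓ)
  exact heckeT_dlog_of_eigen A π hπ p N ℓ hℓ hℓk
    ⟨ζ, hζ, Fermat.Agent.Gateway.ESC.normQExpFormula_algebraicClosure N ℓ hℓ hℓN ζ hζ⟩
    hscal hx hf hfU

end OverQb

/-! ### The level `M q`, vocabulary of `S34x/Inst/RedSetupInst` -/

section LevelMq

open Fermat.Agent.S34x.TwoVal Fermat.Agent.S34x.Inst.RedSetupInst IsLocalRing

variable {L : Type} [Field L] [Algebra ℚ L] [IsAlgClosed L] {A : ValuationSubring L}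
  {k : Type} [Field k] {π : A →+* k} [IsAlgClosed k]
variable {M q : ℕ} [NeZero M] [Fact q.Prime] [CharP k q]
variable {hdeg : finrankAlong L (heckeAlphaBar L M q) = q + 1} {hq : q.Prime} {hqM : ¬ q ∣ M}
variable {hrk : ∀ x ∈ maximalIdeal A, ∀ c : A, c ≠ 0 → ∃ j : ℕ, c ∣ x ^ j}
  {hπ : Function.Surjective π}

/-- units of `valInfty` are the Gauss units -/
theorem isGaussUnit_of_valInfty_eq_one {w : FL L (M * q)}
    (hw : (valInfty A π M q hrk hπ hqM).valuation w = 1) :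
    IsGaussUnit A π (w : LaurentSeries L) := by
  obtain ⟨hx, hne⟩ := (valInfty_eq_one_iff A π M q hqM hrk hπ w).mp hw
  exact ⟨hx, hne⟩

theorem gred_eq_resInfty (H : ResidueFacts A π M q hdeg hq hqM hrk hπ)
    (w : valInfty A π M q hrk hπ hqM) :
    gred A π ((w : FL L (M * q)) : LaurentSeries L) =
      ((resInfty H w : modularFunctionFieldFullC k M) : LaurentSeries k) := by
  rw [coe_resInfty, redV_apply]
  exact gred_of_mem w.2

/-- **Kummer–Hecke at the level `M q`** (`q` the residue characteristic): for a Kummer function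
`f` of `x` which is a unit at `v_∞`, the logarithmic derivative of `f̄ = resInfty f ∈ Fk k M` is a
`T_ℓ`-eigenvector with eigenvalue `a`. -/
theorem heckeT_dlog_resInfty (H : ResidueFacts A π M q hdeg hq hqM hrk hπ)
    {ℓ : ℕ} [NeZero ℓ] (hℓ : ℓ.Prime) (hℓk : (ℓ : k) ≠ 0)
    (hC1 : ∃ ζ : Lˣ, IsPrimitiveRoot ζ ℓ ∧ NormQExpFormula L (M * q) ℓ ζ)
    {x : Pic0 L (FL L (M * q))} {a : ℤ} (hx : heckeOperatorAlong L (M * q) ℓ x = a • x)
    {f : FL L (M * q)} (hf : IsKummerRep q x f)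
    (hfU : (valInfty A π M q hrk hπ hqM).valuation f = 1) :
    ∃ hfO : f ∈ valInfty A π M q hrk hπ hqM,
      heckeT ℓ (dlog ((resInfty H ⟨f, hfO⟩ : modularFunctionFieldFullC k M) : LaurentSeries k)) =
        (a : LaurentSeries k) *
          dlog ((resInfty H ⟨f, hfO⟩ : modularFunctionFieldFullC k M) : LaurentSeries k) := by
  have hfO : f ∈ valInfty A π M q hrk hπ hqM :=
    ((valInfty A π M q hrk hπ hqM).valuation_le_one_iff f).mp hfU.le
  refine ⟨hfO, ?_⟩
  have hscal : ∀ h : FL L (M * q), h ≠ 0 →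
      ∃ d : L, d ≠ 0 ∧ IsGaussUnit A π (HahnSeries.C d * (h : LaurentSeries L)) := by
    intro h hh
    obtain ⟨d, hd, hval⟩ := H.scalV h hh
    refine ⟨d, hd, ?_⟩
    have h1 := isGaussUnit_of_valInfty_eq_one hval
    have h2 : ((d • h : FL L (M * q)) : LaurentSeries L) =
        HahnSeries.C d * (h : LaurentSeries L) := by
      rw [Algebra.smul_def, MulMemClass.coe_mul, coe_algebraMap_FL]
    rwa [h2] at h1
  have key := heckeT_dlog_of_eigen A π hπ q (M * q) ℓ hℓ hℓk hC1 hscal hx hf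
    (isGaussUnit_of_valInfty_eq_one hfU)
  rw [gred_eq_resInfty H ⟨f, hfO⟩] at key
  exact key

end LevelMq

section LevelMqQb

open Fermat.Agent.S34x.TwoVal Fermat.Agent.S34x.Inst.RedSetupInst IsLocalRing

variable {A : ValuationSubring Qb} {k : Type} [Field k] {π : A →+* k} [IsAlgClosed k]
variable {M q : ℕ} [NeZero M] [Fact q.Prime] [CharP k q]
variable {hdeg : finrankAlong Qb (heckeAlphaBar Qb M q) = q + 1} {hq : q.Prime} {hqM : ¬ q ∣ M}
variable {hrk : ∀ x ∈ maximalIdeal A, ∀ c : A, c ≠ 0 → ∃ j : ℕ, c ∣ x ^ j}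
  {hπ : Function.Surjective π}

/-- **Kummer–Hecke at the level `M q` over `ℚ̄`**: every prime `ℓ ∤ M q`. -/
theorem heckeT_dlog_resInfty_Qb (H : ResidueFacts A π M q hdeg hq hqM hrk hπ)
    {ℓ : ℕ} [NeZero ℓ] (hℓ : ℓ.Prime) (hℓN : ¬ ℓ ∣ M * q)
    {x : Pic0 Qb (FL Qb (M * q))} {a : ℤ} (hx : heckeOperatorAlong Qb (M * q) ℓ x = a • x)
    {f : FL Qb (M * q)} (hf : IsKummerRep q x f)
    (hfU : (valInfty A π M q hrk hπ hqM).valuation f = 1) :
    ∃ hfO : f ∈ valInfty A π M q hrk hπ hqM,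
      heckeT ℓ (dlog ((resInfty H ⟨f, hfO⟩ : modularFunctionFieldFullC k M) : LaurentSeries k)) =
        (a : LaurentSeries k) *
          dlog ((resInfty H ⟨f, hfO⟩ : modularFunctionFieldFullC k M) : LaurentSeries k) := by
  obtain ⟨ζ, hζ⟩ := Fermat.Agent.Gateway.ESC.exists_prim_unit Qb ℓ (NeZero.ne ℓ)
  have hℓk : (ℓ : k) ≠ 0 := by
    intro h0
    have h1 : q ∣ ℓ := (CharP.cast_eq_zero_iff k q ℓ).mp h0
    have h2 : q = ℓ := (Nat.prime_dvd_prime_iff_eq (Fact.out : q.Prime) hℓ).mp h1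
    exact hℓN (h2 ▸ dvd_mul_left q M)
  exact heckeT_dlog_resInfty H hℓ hℓk
    ⟨ζ, hζ, Fermat.Agent.Gateway.ESC.normQExpFormula_algebraicClosure (M * q) ℓ hℓ hℓN ζ hζ⟩
    hx hf hfU

end LevelMqQb

end Fermat.Agent.S40x.C2.KH
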