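/-
P-S44 / block C2, leaf C2-KH (helper42): the Atkin–Lehner involution `w_q` at level `M q`
commutes with the multiplicative Hecke operator `heckeFun` at a prime `ℓ ∤ M q`.

* `normAlong_equiv` : transport of the norm along compatible ring automorphisms;
* `castHomL`, `wPrime` : the Atkin–Lehner involution `w_q` of level `(M ℓ) q`, transported to
  `F_{M q ℓ}` through the identification `F_{M q ℓ} = F_{M ℓ q}`;
* `wPrime_alpha`, `wPrime_beta` : `w' ∘ α_ℓ = α_ℓ ∘ w_q`, `w' ∘ β_ℓ = β_ℓ ∘ w_q`;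
* `wAL_heckeFun` : `w_q (heckeFun f) = heckeFun (w_q f)`.
-/
import Fermat.Agent.S34x.KummerSS
import Fermat.Agent.Gateway.Kummer.HeckeRed

set_option autoImplicit false
set_option linter.style.haveILetI false
set_option linter.unusedSectionVars false

noncomputable section

namespace Fermat.Agent.S40x.C2.KH

open ModularCurve AlgebraicCurve Fermat.Agent.Gateway Fermat.Agent.Gateway.Kummer
open Fermat.Agent.Gateway.Hecke Fermat.Agent.S34x.TwoVal Fermat.Agent.S34x.KummerSS

/-! ### Transport of the norm -/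

section Norm

variable {K F F' : Type*} [Field K] [Field F] [Field F'] [Algebra K F] [Algebra K F']

/-- the norm along `ψ` commutes with ring automorphisms compatible with `ψ` -/
theorem normAlong_equiv (ψ : F →ₐ[K] F') (e₁ : F ≃+* F) (e₂ : F' ≃+* F')
    (he : ∀ x : F, e₂ (ψ x) = ψ (e₁ x)) (y : F') :
    normAlong ψ (e₂ y) = e₁ (normAlong ψ y) := by
  unfold normAlong
  letI := algebraAlong ψ
  have h := Algebra.norm_eq_of_equiv_equiv (A₁ := F) (B₁ := F') (A₂ := F) (B₂ := F') e₁ e₂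
    (RingHom.ext fun x => (he x).symm) y
  rw [h, RingEquiv.apply_symm_apply]

end Norm

/-! ### The identification `F_{a} = F_{b}` for `a = b` -/

section Cast

variable (L : Type) [Field L] [Algebra ℚ L]

theorem FL_congr {a b : ℕ} [NeZero a] [NeZero b] (h : a = b) : FL L a = FL L b := by
  subst h
  rfl

/-- the identification `F_a = F_b` for `a = b` -/
def castHomL {a b : ℕ} [NeZero a] [NeZero b] (h : a = b) : FL L a →ₐ[L] FL L b :=
  IntermediateField.inclusion (le_of_eq (FL_congr L h))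

theorem coe_castHomL {a b : ℕ} [NeZero a] [NeZero b] (h : a = b) (x : FL L a) :
    ((castHomL L h x : FL L b) : LaurentSeries L) = (x : LaurentSeries L) :=
  IntermediateField.coe_inclusion _ x

theorem castHomL_castHomL {a b : ℕ} [NeZero a] [NeZero b] (h : a = b) (h' : b = a)
    (x : FL L a) : castHomL L h' (castHomL L h x) = x :=
  Subtype.ext (by rw [coe_castHomL, coe_castHomL])

end Cast

/-! ### The Atkin–Lehner involution and the degeneracy maps at `ℓ` -/

section AL

variable {L : Type} [Field L] [Algebra ℚ L] [IsAlgClosed L]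
variable {M q ℓ : ℕ} [NeZero M] [NeZero q] [NeZero ℓ]
variable (hdeg : finrankAlong L (heckeAlphaBar L M q) = q + 1) (hq : q.Prime) (hqM : ¬ q ∣ M)
variable (hdeg' : finrankAlong L (heckeAlphaBar L (M * ℓ) q) = q + 1) (hqMℓ : ¬ q ∣ M * ℓ)

/-- the Atkin–Lehner involution as a ring automorphism -/
def wALEquiv : FL L (M * q) ≃+* FL L (M * q) :=
  RingEquiv.ofRingHom (wAL hdeg hq hqM) (wAL hdeg hq hqM)
    (RingHom.ext fun x => wAL_wAL hdeg hq hqM x) (RingHom.ext fun x => wAL_wAL hdeg hq hqM x)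

@[simp]
theorem wALEquiv_apply (x : FL L (M * q)) : wALEquiv hdeg hq hqM x = wAL hdeg hq hqM x := rfl

/-- `w_q` of level `(M ℓ) q` transported to `F_{M q ℓ}`, as a ring endomorphism -/
def wPrimeHom : FL L (M * q * ℓ) →+* FL L (M * q * ℓ) :=
  (castHomL L (Nat.mul_right_comm M ℓ q)).toRingHom.comp
    ((wAL hdeg' hq hqMℓ).comp (castHomL L (Nat.mul_right_comm M q ℓ)).toRingHom)

theorem wPrimeHom_apply (x : FL L (M * q * ℓ)) :
    wPrimeHom hq hdeg' hqMℓ x = castHomL L (Nat.mul_right_comm M ℓ q)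
      (wAL hdeg' hq hqMℓ (castHomL L (Nat.mul_right_comm M q ℓ) x)) := rfl

theorem coe_wPrimeHom (x : FL L (M * q * ℓ)) :
    ((wPrimeHom hq hdeg' hqMℓ x : FL L (M * q * ℓ)) : LaurentSeries L) =
      iota0 L (M * ℓ) q hdeg' hq hqMℓ (castHomL L (Nat.mul_right_comm M q ℓ) x) := by
  rw [wPrimeHom_apply, coe_castHomL, coe_wAL]

theorem wPrimeHom_wPrimeHom (x : FL L (M * q * ℓ)) :
    wPrimeHom hq hdeg' hqMℓ (wPrimeHom hq hdeg' hqMℓ x) = x := by
  rw [wPrimeHom_apply, wPrimeHom_apply, castHomL_castHomL, wAL_wAL, castHomL_castHomL]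

/-- `w_q` of level `(M ℓ) q` transported to `F_{M q ℓ}` -/
def wPrime : FL L (M * q * ℓ) ≃+* FL L (M * q * ℓ) :=
  RingEquiv.ofRingHom (wPrimeHom hq hdeg' hqMℓ) (wPrimeHom hq hdeg' hqMℓ)
    (RingHom.ext fun x => wPrimeHom_wPrimeHom hq hdeg' hqMℓ x)
    (RingHom.ext fun x => wPrimeHom_wPrimeHom hq hdeg' hqMℓ x)

theorem wPrime_apply (x : FL L (M * q * ℓ)) :
    wPrime hq hdeg' hqMℓ x = wPrimeHom hq hdeg' hqMℓ x := rfl

theorem coe_wPrime (x : FL L (M * q * ℓ)) :
    ((wPrime hq hdeg' hqMℓ x : FL L (M * q * ℓ)) : LaurentSeries L) =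
      iota0 L (M * ℓ) q hdeg' hq hqMℓ (castHomL L (Nat.mul_right_comm M q ℓ) x) := by
  rw [wPrime_apply, coe_wPrimeHom]

omit [IsAlgClosed L] in
theorem qExpand_comm (a b : ℕ) [NeZero a] [NeZero b] (f : LaurentSeries L) :
    qExpand L a (qExpand L b f) = qExpand L b (qExpand L a f) := by
  rw [qExpand_qExpand, qExpand_qExpand]
  exact qExpand_congr (mul_comm a b) f

/-- `w' ∘ α_ℓ = α_ℓ ∘ w_q` -/
theorem wPrime_alpha (u : FL L (M * q)) :
    wPrime hq hdeg' hqMℓ (heckeAlphaBar L (M * q) ℓ u) =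
      heckeAlphaBar L (M * q) ℓ (wAL hdeg hq hqM u) := by
  have key : ((wPrime hq hdeg' hqMℓ : FL L (M * q * ℓ) →+* FL L (M * q * ℓ))).comp
      (heckeAlphaBar L (M * q) ℓ).toRingHom =
      (heckeAlphaBar L (M * q) ℓ).toRingHom.comp (wAL hdeg hq hqM) := by
    refine ringHom_ext_alpha_beta L M q hq _ _ (fun v => ?_) (fun v => ?_)
    · refine Subtype.ext ?_
      have h1 : castHomL L (Nat.mul_right_comm M q ℓ)
          (heckeAlphaBar L (M * q) ℓ (heckeAlphaBar L M q v)) =
          heckeAlphaBar L (M * ℓ) q (heckeAlphaBar L M ℓ v) :=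
        Subtype.ext (by
          rw [coe_castHomL, coe_heckeAlphaBar, coe_heckeAlphaBar, coe_heckeAlphaBar,
            coe_heckeAlphaBar])
      show ((wPrime hq hdeg' hqMℓ (heckeAlphaBar L (M * q) ℓ (heckeAlphaBar L M q v)) :
        FL L (M * q * ℓ)) : LaurentSeries L) =
        ((heckeAlphaBar L (M * q) ℓ (wAL hdeg hq hqM (heckeAlphaBar L M q v)) :
          FL L (M * q * ℓ)) : LaurentSeries L)
      rw [coe_wPrime, h1, iota0_alpha, coe_heckeAlphaBar, coe_heckeAlphaBar, wAL_alpha,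
        coe_heckeBetaBar]
    · refine Subtype.ext ?_
      have h1 : castHomL L (Nat.mul_right_comm M q ℓ)
          (heckeAlphaBar L (M * q) ℓ (heckeBetaBar L M q v)) =
          heckeBetaBar L (M * ℓ) q (heckeAlphaBar L M ℓ v) :=
        Subtype.ext (by
          rw [coe_castHomL, coe_heckeAlphaBar, coe_heckeBetaBar, coe_heckeBetaBar,
            coe_heckeAlphaBar])
      show ((wPrime hq hdeg' hqMℓ (heckeAlphaBar L (M * q) ℓ (heckeBetaBar L M q v)) :
        FL L (M * q * ℓ)) : LaurentSeries L) =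
        ((heckeAlphaBar L (M * q) ℓ (wAL hdeg hq hqM (heckeBetaBar L M q v)) :
          FL L (M * q * ℓ)) : LaurentSeries L)
      rw [coe_wPrime, h1, iota0_beta, coe_heckeAlphaBar, coe_heckeAlphaBar, wAL_beta,
        coe_heckeAlphaBar]
  exact congrFun (congrArg DFunLike.coe key) u

/-- `w' ∘ β_ℓ = β_ℓ ∘ w_q` -/
theorem wPrime_beta (u : FL L (M * q)) :
    wPrime hq hdeg' hqMℓ (heckeBetaBar L (M * q) ℓ u) =
      heckeBetaBar L (M * q) ℓ (wAL hdeg hq hqM u) := by
  have key : ((wPrime hq hdeg' hqMℓ : FL L (M * q * ℓ) →+* FL L (M * q * ℓ))).comp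
      (heckeBetaBar L (M * q) ℓ).toRingHom =
      (heckeBetaBar L (M * q) ℓ).toRingHom.comp (wAL hdeg hq hqM) := by
    refine ringHom_ext_alpha_beta L M q hq _ _ (fun v => ?_) (fun v => ?_)
    · refine Subtype.ext ?_
      have h1 : castHomL L (Nat.mul_right_comm M q ℓ)
          (heckeBetaBar L (M * q) ℓ (heckeAlphaBar L M q v)) =
          heckeAlphaBar L (M * ℓ) q (heckeBetaBar L M ℓ v) :=
        Subtype.ext (by
          rw [coe_castHomL, coe_heckeBetaBar, coe_heckeAlphaBar, coe_heckeAlphaBar,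
            coe_heckeBetaBar])
      show ((wPrime hq hdeg' hqMℓ (heckeBetaBar L (M * q) ℓ (heckeAlphaBar L M q v)) :
        FL L (M * q * ℓ)) : LaurentSeries L) =
        ((heckeBetaBar L (M * q) ℓ (wAL hdeg hq hqM (heckeAlphaBar L M q v)) :
          FL L (M * q * ℓ)) : LaurentSeries L)
      rw [coe_wPrime, h1, iota0_alpha, coe_heckeBetaBar, coe_heckeBetaBar, wAL_alpha,
        coe_heckeBetaBar, qExpand_comm]
    · refine Subtype.ext ?_
      have h1 : castHomL L (Nat.mul_right_comm M q ℓ)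
          (heckeBetaBar L (M * q) ℓ (heckeBetaBar L M q v)) =
          heckeBetaBar L (M * ℓ) q (heckeBetaBar L M ℓ v) :=
        Subtype.ext (by
          rw [coe_castHomL, coe_heckeBetaBar, coe_heckeBetaBar, coe_heckeBetaBar,
            coe_heckeBetaBar, qExpand_comm])
      show ((wPrime hq hdeg' hqMℓ (heckeBetaBar L (M * q) ℓ (heckeBetaBar L M q v)) :
        FL L (M * q * ℓ)) : LaurentSeries L) =
        ((heckeBetaBar L (M * q) ℓ (wAL hdeg hq hqM (heckeBetaBar L M q v)) :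
          FL L (M * q * ℓ)) : LaurentSeries L)
      rw [coe_wPrime, h1, iota0_beta, coe_heckeBetaBar, coe_heckeBetaBar, wAL_beta,
        coe_heckeAlphaBar]
  exact congrFun (congrArg DFunLike.coe key) u

include hdeg' hqMℓ in
/-- **The Atkin–Lehner involution commutes with the multiplicative Hecke operator.** -/
theorem wAL_heckeFun (f : FL L (M * q)) :
    wAL hdeg hq hqM (heckeFun L (M * q) ℓ f) = heckeFun L (M * q) ℓ (wAL hdeg hq hqM f) := by
  unfold heckeFun
  rw [← wPrime_beta hdeg hq hqM hdeg' hqMℓ f]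
  exact (normAlong_equiv (heckeAlphaBar L (M * q) ℓ) (wALEquiv hdeg hq hqM)
    (wPrime hq hdeg' hqMℓ) (fun x => wPrime_alpha hdeg hq hqM hdeg' hqMℓ x) _).symm

end AL

end Fermat.Agent.S40x.C2.KH
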