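/-
P-S44 / block C2, leaf C2-KH (helper42): **Kummer–Hecke at the second cusp** (`v_0` side).

Level `M q` (`q ∤ M` prime: in the application the residue characteristic), `ι₀ : F_{Mq} → L((s))`
the second embedding (`S34x/TwoVal/Iota0`), `ℓ ∤ M q` a prime.  If `T_ℓ x = a • x` and `f` is a
Kummer function of `x` at exponent `p` whose second expansion `ι₀ f` is a Gauss unit, then

  `T_ℓ (dlog (red (ι₀ f))) = a * dlog (red (ι₀ f))`.

Proof: `ι₀ = coe ∘ w_q` (`KummerSS.coe_wAL`), `w_q` commutes with `heckeFun` (`AtkinLehner.lean`),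
so the norm formula (C1) for `w_q f` is a norm formula for the second expansions; then `Core`.

* `heckeT_dlog_of_eigen_zero` : general form (`gred` vocabulary);
* `heckeT_dlog_resZero`, `heckeT_dlog_resZero_Qb` : in the vocabulary `valZero`, `resZero` of
  `S34x/Inst/RedSetupInst`.
-/
import Fermat.Agent.S40x.C2.KH.Main
import Fermat.Agent.S40x.C2.KH.AtkinLehner

set_option autoImplicit false
set_option linter.style.haveILetI false
set_option linter.unusedSectionVars false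

noncomputable section

namespace Fermat.Agent.S40x.C2.KH

open ModularCurve AlgebraicCurve Fermat.Agent.Gateway Fermat.Agent.Gateway.Kummer
open Fermat.Agent.Gateway.Hecke Fermat.Agent.Gateway.Red Fermat.Agent.Gateway.GoodRed
open Fermat.Agent.S40x.C2.DlogHecke Fermat.Agent.S34x.TwoVal Fermat.Agent.S34x.KummerSS

local notation "Qb" => AlgebraicClosure ℚ

section General

variable {L : Type} [Field L] [Algebra ℚ L] [IsAlgClosed L] (A : ValuationSubring L)
  {k : Type*} [Field k] (π : A →+* k)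
variable {M q ℓ : ℕ} [NeZero M] [NeZero q] [NeZero ℓ]
variable (hdeg : finrankAlong L (heckeAlphaBar L M q) = q + 1) (hq : q.Prime) (hqM : ¬ q ∣ M)
variable (hdeg' : finrankAlong L (heckeAlphaBar L (M * ℓ) q) = q + 1) (hqMℓ : ¬ q ∣ M * ℓ)

include hdeg' hqMℓ in
/-- **Kummer–Hecke at the second cusp, general form.** -/
theorem heckeT_dlog_of_eigen_zero (hπ : Function.Surjective π) (p : ℕ) [CharP k p]
    (hℓ : ℓ.Prime) (hℓk : (ℓ : k) ≠ 0)
    (hC1 : ∃ ζ : Lˣ, IsPrimitiveRoot ζ ℓ ∧ NormQExpFormula L (M * q) ℓ ζ)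
    (hscal : ∀ h : FL L (M * q), h ≠ 0 →
      ∃ d : L, d ≠ 0 ∧ IsGaussUnit A π (HahnSeries.C d * iota0 L M q hdeg hq hqM h))
    {x : Pic0 L (FL L (M * q))} {a : ℤ} (hx : heckeOperatorAlong L (M * q) ℓ x = a • x)
    {f : FL L (M * q)} (hf : IsKummerRep p x f)
    (hfU : IsGaussUnit A π (iota0 L M q hdeg hq hqM f)) :
    heckeT ℓ (dlog (gred A π (iota0 L M q hdeg hq hqM f))) =
      (a : LaurentSeries k) * dlog (gred A π (iota0 L M q hdeg hq hqM f)) := by
  obtain ⟨ζ, hζ, hform⟩ := hC1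
  obtain ⟨c, h, hc, hh, hfun⟩ := exists_heckeFun_eq L (M * q) ℓ hx hf
  obtain ⟨d, hd, hdU⟩ := hscal h hh
  have hG : iota0 L M q hdeg hq hqM (heckeFun L (M * q) ℓ f) =
      HahnSeries.C (c * (d ^ p)⁻¹) * (iota0 L M q hdeg hq hqM f) ^ a *
        (HahnSeries.C d * iota0 L M q hdeg hq hqM h) ^ p := by
    have e1 : iota0 L M q hdeg hq hqM (heckeFun L (M * q) ℓ f) =
        HahnSeries.C c * (iota0 L M q hdeg hq hqM f) ^ a * (iota0 L M q hdeg hq hqM h) ^ p := by
      rw [hfun, map_mul, map_mul, iota0_algebraMap, map_zpow₀, map_pow]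
    have hdp : (HahnSeries.C d : LaurentSeries L) ^ p ≠ 0 :=
      pow_ne_zero p fun h0 => hd (HahnSeries.C_injective (by rw [h0, map_zero]))
    rw [e1, mul_pow, map_mul, map_inv₀, map_pow]
    field_simp
  have hN : qExpand L ℓ (iota0 L M q hdeg hq hqM (heckeFun L (M * q) ℓ f)) =
      qExpand L (ℓ * ℓ) (iota0 L M q hdeg hq hqM f) *
        ∏ b ∈ Finset.range ℓ, Kummer.twist (ζ ^ b) (iota0 L M q hdeg hq hqM f) := by
    have h1 := hform (wAL hdeg hq hqM f)
    rw [← wAL_heckeFun hdeg hq hqM hdeg' hqMℓ f, coe_wAL, coe_wAL] at h1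
    exact h1
  exact heckeT_dlog_gred hπ p hℓ hℓk hζ hfU hdU hG hN

end General

/-! ### The level `M q`, vocabulary of `S34x/Inst/RedSetupInst` -/

section LevelMq

open Fermat.Agent.S34x.Inst.RedSetupInst IsLocalRing

variable {L : Type} [Field L] [Algebra ℚ L] [IsAlgClosed L] {A : ValuationSubring L}
  {k : Type} [Field k] {π : A →+* k} [IsAlgClosed k]
variable {M q : ℕ} [NeZero M] [Fact q.Prime] [CharP k q]
variable {hdeg : finrankAlong L (heckeAlphaBar L M q) = q + 1} {hq : q.Prime} {hqM : ¬ q ∣ M}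
variable {hrk : ∀ x ∈ maximalIdeal A, ∀ c : A, c ≠ 0 → ∃ j : ℕ, c ∣ x ^ j}
  {hπ : Function.Surjective π}

/-- units of `valZero` have second expansion a Gauss unit -/
theorem isGaussUnit_iota0_of_valZero_eq_one {w : FL L (M * q)}
    (hw : (valZero A π M q hdeg hq hqM hrk hπ).valuation w = 1) :
    IsGaussUnit A π (iota0 L M q hdeg hq hqM w) := by
  obtain ⟨hx, hne⟩ := (valZero_eq_one_iff A π M q hdeg hq hqM hrk hπ w).mp hw
  exact ⟨hx, hne⟩

theorem gred_iota0_eq_resZero (H : ResidueFacts A π M q hdeg hq hqM hrk hπ)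
    (w : valZero A π M q hdeg hq hqM hrk hπ) :
    gred A π (iota0 L M q hdeg hq hqM (w : FL L (M * q))) =
      ((resZero H w : modularFunctionFieldFullC k M) : LaurentSeries k) := by
  rw [coe_resZero, red0_apply]
  exact gred_of_mem w.2

/-- **Kummer–Hecke at the level `M q`, second cusp**: for a Kummer function `f` of `x` which is a
unit at `v_0`, the logarithmic derivative of `resZero f ∈ Fk k M` is a `T_ℓ`-eigenvector with
eigenvalue `a`. -/
theorem heckeT_dlog_resZero (H : ResidueFacts A π M q hdeg hq hqM hrk hπ)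
    {ℓ : ℕ} [NeZero ℓ] (hℓ : ℓ.Prime) (hℓk : (ℓ : k) ≠ 0)
    (hdeg' : finrankAlong L (heckeAlphaBar L (M * ℓ) q) = q + 1) (hqMℓ : ¬ q ∣ M * ℓ)
    (hC1 : ∃ ζ : Lˣ, IsPrimitiveRoot ζ ℓ ∧ NormQExpFormula L (M * q) ℓ ζ)
    {x : Pic0 L (FL L (M * q))} {a : ℤ} (hx : heckeOperatorAlong L (M * q) ℓ x = a • x)
    {f : FL L (M * q)} (hf : IsKummerRep q x f)
    (hfU : (valZero A π M q hdeg hq hqM hrk hπ).valuation f = 1) :
    ∃ hfO : f ∈ valZero A π M q hdeg hq hqM hrk hπ,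
      heckeT ℓ (dlog ((resZero H ⟨f, hfO⟩ : modularFunctionFieldFullC k M) : LaurentSeries k)) =
        (a : LaurentSeries k) *
          dlog ((resZero H ⟨f, hfO⟩ : modularFunctionFieldFullC k M) : LaurentSeries k) := by
  have hfO : f ∈ valZero A π M q hdeg hq hqM hrk hπ :=
    ((valZero A π M q hdeg hq hqM hrk hπ).valuation_le_one_iff f).mp hfU.le
  refine ⟨hfO, ?_⟩
  have hscal : ∀ h : FL L (M * q), h ≠ 0 →
      ∃ d : L, d ≠ 0 ∧ IsGaussUnit A π (HahnSeries.C d * iota0 L M q hdeg hq hqM h) := by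
    intro h hh
    obtain ⟨d, hd, hval⟩ := H.scal0 h hh
    refine ⟨d, hd, ?_⟩
    have h1 := isGaussUnit_iota0_of_valZero_eq_one hval
    have h2 : iota0 L M q hdeg hq hqM (d • h) =
        HahnSeries.C d * iota0 L M q hdeg hq hqM h := by
      rw [Algebra.smul_def, map_mul, iota0_algebraMap]
    rwa [h2] at h1
  have key := heckeT_dlog_of_eigen_zero A π hdeg hq hqM hdeg' hqMℓ hπ q hℓ hℓk hC1 hscal hx hf
    (isGaussUnit_iota0_of_valZero_eq_one hfU)
  rw [gred_iota0_eq_resZero H ⟨f, hfO⟩] at key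
  exact key

end LevelMq

section LevelMqQb

open Fermat.Agent.S34x.Inst.RedSetupInst IsLocalRing

variable {A : ValuationSubring Qb} {k : Type} [Field k] {π : A →+* k} [IsAlgClosed k]
variable {M q : ℕ} [NeZero M] [Fact q.Prime] [CharP k q]
variable {hdeg : finrankAlong Qb (heckeAlphaBar Qb M q) = q + 1} {hq : q.Prime} {hqM : ¬ q ∣ M}
variable {hrk : ∀ x ∈ maximalIdeal A, ∀ c : A, c ≠ 0 → ∃ j : ℕ, c ∣ x ^ j}
  {hπ : Function.Surjective π}

/-- **Kummer–Hecke at the level `M q` over `ℚ̄`, second cusp**: every prime `ℓ ∤ M q`. -/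
theorem heckeT_dlog_resZero_Qb (H : ResidueFacts A π M q hdeg hq hqM hrk hπ)
    {ℓ : ℕ} [NeZero ℓ] (hℓ : ℓ.Prime) (hℓN : ¬ ℓ ∣ M * q)
    {x : Pic0 Qb (FL Qb (M * q))} {a : ℤ} (hx : heckeOperatorAlong Qb (M * q) ℓ x = a • x)
    {f : FL Qb (M * q)} (hf : IsKummerRep q x f)
    (hfU : (valZero A π M q hdeg hq hqM hrk hπ).valuation f = 1) :
    ∃ hfO : f ∈ valZero A π M q hdeg hq hqM hrk hπ,
      heckeT ℓ (dlog ((resZero H ⟨f, hfO⟩ : modularFunctionFieldFullC k M) : LaurentSeries k)) =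
        (a : LaurentSeries k) *
          dlog ((resZero H ⟨f, hfO⟩ : modularFunctionFieldFullC k M) : LaurentSeries k) := by
  obtain ⟨ζ, hζ⟩ := Fermat.Agent.Gateway.ESC.exists_prim_unit Qb ℓ (NeZero.ne ℓ)
  have hqℓ : q ≠ ℓ := fun h => hℓN (h ▸ dvd_mul_left q M)
  have hℓk : (ℓ : k) ≠ 0 := by
    intro h0
    have h1 : q ∣ ℓ := (CharP.cast_eq_zero_iff k q ℓ).mp h0
    exact hqℓ ((Nat.prime_dvd_prime_iff_eq (Fact.out : q.Prime) hℓ).mp h1)
  have hqMℓ : ¬ q ∣ M * ℓ := by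
    intro h
    rcases (Nat.Prime.dvd_mul hq).mp h with h1 | h1
    · exact hqM h1
    · exact hqℓ ((Nat.prime_dvd_prime_iff_eq hq hℓ).mp h1)
  exact heckeT_dlog_resZero H hℓ hℓk
    (Fermat.Agent.Gateway.ESC.finrank_along_alpha (M * ℓ) q hq hqMℓ) hqMℓ
    ⟨ζ, hζ, Fermat.Agent.Gateway.ESC.normQExpFormula_algebraicClosure (M * q) ℓ hℓ hℓN ζ hζ⟩
    hx hf hfU

end LevelMqQb

end Fermat.Agent.S40x.C2.KH
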