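/-
P-S44 / block C2, leaf C2-KH (helper42): the two Kummer–Hecke statements in the shape of the
hypotheses `hKH₁`, `hKH₂` of `S40x/C2/AsmAbs` (vocabulary of `S40x/Slope`: `UnitTwo`, `red`), at
the level `M q` over `ℚ̄`, `O₁ = valInfty`, `O₂ = valZero`, `ρ₁ = resInfty H`, `ρ₂ = resZero H`,
`E = Fk k M`, `dl f = dlog (f : k((q)))`, `H_ℓ = heckeT ℓ`, every prime `ℓ ∤ M q`.
-/
import Fermat.Agent.S40x.C2.KH.MainZero
import Fermat.Agent.S40x.Slope.SlopeInv

set_option autoImplicit false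
set_option linter.style.haveILetI false
set_option linter.unusedSectionVars false

noncomputable section

namespace Fermat.Agent.S40x.C2.KH

open ModularCurve AlgebraicCurve Fermat.Agent.Gateway Fermat.Agent.Gateway.Kummer
open Fermat.Agent.Gateway.Hecke Fermat.Agent.S40x.C2.DlogHecke Fermat.Agent.S34x.TwoVal
open Fermat.Agent.S34x.Inst.RedSetupInst IsLocalRing
open Fermat.Agent.S40x.Slope.UnitTwo Fermat.Agent.S40x.Slope.SlopeInv

local notation "Qb" => AlgebraicClosure ℚ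

theorem intCast_mul_eq_smul {k : Type*} [Field k] (a : ℤ) (g : LaurentSeries k) :
    (a : LaurentSeries k) * g = ((a : ℤ) : k) • g := by
  rw [← map_intCast (HahnSeries.C : k →+* LaurentSeries k) a, HahnSeries.C_mul_eq_smul]

variable {A : ValuationSubring Qb} {k : Type} [Field k] {π : A →+* k} [IsAlgClosed k]
variable {M q : ℕ} [NeZero M] [Fact q.Prime] [CharP k q]
variable {hdeg : finrankAlong Qb (heckeAlphaBar Qb M q) = q + 1} {hq : q.Prime} {hqM : ¬ q ∣ M}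
variable {hrk : ∀ x ∈ maximalIdeal A, ∀ c : A, c ≠ 0 → ∃ j : ℕ, c ∣ x ^ j}
  {hπ : Function.Surjective π}

/-- **`hKH₁`** (the cusp `∞`) -/
theorem hKH_infty (H : ResidueFacts A π M q hdeg hq hqM hrk hπ)
    {ℓ : ℕ} [NeZero ℓ] (hℓ : ℓ.Prime) (hℓN : ¬ ℓ ∣ M * q)
    {ξ : Pic0 Qb (FL Qb (M * q))} {w : FL Qb (M * q)} (hw : IsKummerRep q ξ w)
    (hU : UnitTwo (valInfty A π M q hrk hπ hqM) (valZero A π M q hdeg hq hqM hrk hπ) w)
    {a : ℤ} (hT : heckeOperatorAlong Qb (M * q) ℓ ξ = a • ξ) :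
    heckeT ℓ (dlog ((red (valInfty A π M q hrk hπ hqM) (resInfty H) w :
        modularFunctionFieldFullC k M) : LaurentSeries k)) =
      ((a : ℤ) : k) • dlog ((red (valInfty A π M q hrk hπ hqM) (resInfty H) w :
        modularFunctionFieldFullC k M) : LaurentSeries k) := by
  obtain ⟨hfO, h⟩ := heckeT_dlog_resInfty_Qb H hℓ hℓN hT hw hU.1
  rw [red_of_mem hfO, h, intCast_mul_eq_smul]

/-- **`hKH₂`** (the cusp `0`) -/
theorem hKH_zero (H : ResidueFacts A π M q hdeg hq hqM hrk hπ)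
    {ℓ : ℕ} [NeZero ℓ] (hℓ : ℓ.Prime) (hℓN : ¬ ℓ ∣ M * q)
    {ξ : Pic0 Qb (FL Qb (M * q))} {w : FL Qb (M * q)} (hw : IsKummerRep q ξ w)
    (hU : UnitTwo (valInfty A π M q hrk hπ hqM) (valZero A π M q hdeg hq hqM hrk hπ) w)
    {a : ℤ} (hT : heckeOperatorAlong Qb (M * q) ℓ ξ = a • ξ) :
    heckeT ℓ (dlog ((red (valZero A π M q hdeg hq hqM hrk hπ) (resZero H) w :
        modularFunctionFieldFullC k M) : LaurentSeries k)) =
      ((a : ℤ) : k) • dlog ((red (valZero A π M q hdeg hq hqM hrk hπ) (resZero H) w :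
        modularFunctionFieldFullC k M) : LaurentSeries k) := by
  obtain ⟨hfO, h⟩ := heckeT_dlog_resZero_Qb H hℓ hℓN hT hw hU.2
  rw [red_of_mem hfO, h, intCast_mul_eq_smul]

end Fermat.Agent.S40x.C2.KH
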